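import Fermat.Prelude.Def_EllipticCurve_FrobeniusTrace
import Mathlib.RingTheory.Invariant.Profinite
import Mathlib.FieldTheory.Galois.Profinite
import Mathlib.FieldTheory.Galois.Infinite
import Mathlib.RingTheory.Valuation.LocalSubring
import Mathlib.RingTheory.Polynomial.Content

/-!
# Existence of Frobenius elements in the absolute Galois group of `ℚ`

For every prime `ℓ` there is a valuation subring `A` of `AlgebraicClosure ℚ` lying over `ℓ`, and
for every such `A` there is a Frobenius element at `A`.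
-/

set_option autoImplicit false
set_option linter.style.haveILetI false
set_option linter.unusedSectionVars false

namespace Fermat.Agent.S54

open Polynomial

section Key

variable {L : Type*} [Field L] (A : ValuationSubring L)

/-- Integral elements lie in every valuation subring. -/
theorem mem_valuationSubring_of_isIntegral {x : L} (hx : IsIntegral ℤ x) : x ∈ A := by
  have h : IsIntegral A x := hx.tower_top
  obtain ⟨y, hy⟩ := IsIntegrallyClosed.algebraMap_eq_of_integral (R := A) (K := L) h
  rw [← hy]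
  exact y.2

/-- The inclusion of the ring of all algebraic integers in a valuation subring. -/
def intToVal : integralClosure ℤ L →+* A where
  toFun b := ⟨b.1, mem_valuationSubring_of_isIntegral A b.2⟩
  map_one' := rfl
  map_mul' _ _ := rfl
  map_zero' := rfl
  map_add' _ _ := rfl

@[simp] theorem coe_intToVal (b : integralClosure ℤ L) : ((intToVal A b : A) : L) = (b : L) := rfl

/-- The centre of the valuation subring on the ring of all algebraic integers. -/
def centre : Ideal (integralClosure ℤ L) := (IsLocalRing.maximalIdeal A).comap (intToVal A)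

instance centre_isPrime : (centre A).IsPrime := Ideal.comap_isPrime _ _

theorem mem_centre_iff (b : integralClosure ℤ L) :
    b ∈ centre A ↔ intToVal A b ∈ IsLocalRing.maximalIdeal A := Iff.rfl

theorem key_aux (x : A) : ∀ (n : ℕ) (p : (integralClosure ℤ L)[X]), p.natDegree ≤ n →
    aeval (x : L) p = 0 → (∃ i, p.coeff i ∉ centre A) →
    ∃ b s : integralClosure ℤ L, s ∉ centre A ∧ (x : L) * s = b := by
  intro n
  induction n with
  | zero =>
    intro p hp h0 ⟨i, hi⟩
    exfalso
    rw [Polynomial.eq_C_of_natDegree_le_zero hp] at h0 hi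
    simp only [aeval_C] at h0
    have h1 : p.coeff 0 = 0 := by
      apply Subtype.ext
      simpa using h0
    rw [h1] at hi
    simp at hi
  | succ n ih =>
    intro p hp h0 ⟨i, hi⟩
    by_cases hdeg : p.natDegree ≤ n
    · exact ih p hdeg h0 ⟨i, hi⟩
    have hdeg' : p.natDegree = n + 1 := le_antisymm hp (Nat.lt_of_not_le hdeg)
    have hz : IsIntegral ℤ (p.leadingCoeff • (x : L)) :=
      isIntegral_trans _ (isIntegral_leadingCoeff_smul p (x : L) h0)
    by_cases ha : p.leadingCoeff ∈ centre A
    · -- reduce the degree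
      let z : integralClosure ℤ L := ⟨p.leadingCoeff • (x : L), hz⟩
      have hzc : z ∈ centre A := by
        rw [mem_centre_iff]
        have : intToVal A z = intToVal A p.leadingCoeff * x := by
          apply Subtype.ext
          simp [z, Algebra.smul_def]
        rw [this]
        exact Ideal.mul_mem_right _ _ ha
      refine ih (p.eraseLead + C z * X ^ n) ?_ ?_ ?_
      · refine (natDegree_add_le _ _).trans (max_le ?_ (natDegree_C_mul_X_pow_le _ _))
        have := eraseLead_natDegree_le p
        omega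
      · have h1 : aeval (x : L) p = aeval (x : L) p.eraseLead +
            aeval (x : L) (C p.leadingCoeff * X ^ p.natDegree) := by
          rw [← map_add, eraseLead_add_C_mul_X_pow]
        rw [h0] at h1
        rw [map_add, h1]
        congr 1
        simp only [map_mul, aeval_C, map_pow, aeval_X, hdeg', pow_succ]
        simp [z, Algebra.smul_def]
        ring
      · have hin : i ≠ p.natDegree := by
          rintro rfl
          exact hi ha
        refine ⟨i, ?_⟩
        rw [coeff_add, eraseLead_coeff_of_ne _ hin, coeff_C_mul, coeff_X_pow]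
        intro hmem
        apply hi
        have h2 : z * (if i = n then 1 else 0) ∈ centre A := Ideal.mul_mem_right _ _ hzc
        simpa using (Ideal.sub_mem _ hmem h2)
    · exact ⟨⟨p.leadingCoeff • (x : L), hz⟩, p.leadingCoeff, ha, by
        simp [Algebra.smul_def, mul_comm]⟩

theorem natCast_mem_centre {ℓ : ℕ} (hA : (ℓ : L) ∈ A.nonunits) :
    (ℓ : integralClosure ℤ L) ∈ centre A := by
  rw [mem_centre_iff, map_natCast, IsLocalRing.mem_maximalIdeal, mem_nonunits_iff]
  intro hu
  have h1 : (ℓ : L) ∈ A.nonunits := hA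
  rw [ValuationSubring.mem_nonunits_iff_exists_mem_maximalIdeal] at h1
  obtain ⟨ha, hm⟩ := h1
  apply (IsLocalRing.mem_maximalIdeal _).mp hm
  convert hu using 1
  exact Subtype.ext (by simp)

theorem intCast_mem_centre_iff {ℓ : ℕ} (hℓ : ℓ.Prime) (hA : (ℓ : L) ∈ A.nonunits) (a : ℤ) :
    (a : integralClosure ℤ L) ∈ centre A ↔ (ℓ : ℤ) ∣ a := by
  constructor
  · intro ha
    by_contra hdvd
    have hcop : IsCoprime (ℓ : ℤ) a :=
      (Nat.prime_iff_prime_int.mp hℓ).coprime_iff_not_dvd.mpr hdvd
    obtain ⟨u, v, huv⟩ := hcop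
    apply (centre_isPrime A).ne_top
    rw [Ideal.eq_top_iff_one]
    have h1 : ((u * ℓ + v * a : ℤ) : integralClosure ℤ L) ∈ centre A := by
      push_cast
      exact Ideal.add_mem _ (Ideal.mul_mem_left _ _ (natCast_mem_centre A hA))
        (Ideal.mul_mem_left _ _ ha)
    rw [huv] at h1
    simpa using h1
  · rintro ⟨c, rfl⟩
    push_cast
    exact Ideal.mul_mem_right _ _ (natCast_mem_centre A hA)

/-- Every element of a valuation subring `A` that is algebraic over `ℤ` is a fraction of
algebraic integers whose denominator is a unit of `A`, provided `A` has residue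
characteristic `ℓ`. -/
theorem exists_fraction [CharZero L] {ℓ : ℕ} (hℓ : ℓ.Prime) (hA : (ℓ : L) ∈ A.nonunits) (x : A)
    (hx : IsAlgebraic ℤ (x : L)) :
    ∃ b s : integralClosure ℤ L, s ∉ centre A ∧ (x : L) * s = b := by
  obtain ⟨p, hp0, hp⟩ := hx
  have hprim : p.primPart.IsPrimitive := p.isPrimitive_primPart
  have hroot : aeval (x : L) p.primPart = 0 := aeval_primPart_eq_zero hp0 hp
  refine key_aux A x _ (p.primPart.map (algebraMap ℤ (integralClosure ℤ L))) le_rfl ?_ ?_
  · rw [aeval_map_algebraMap]; exact hroot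
  · by_contra hcon
    push Not at hcon
    have hdvd : C (ℓ : ℤ) ∣ p.primPart := by
      rw [C_dvd_iff_dvd_coeff]
      intro i
      have := hcon i
      rw [coeff_map, eq_intCast, intCast_mem_centre_iff A hℓ hA] at this
      exact this
    have hu := hprim _ hdvd
    rw [Int.isUnit_iff] at hu
    have := hℓ.two_le
    omega

end Key

section Galois

open scoped Pointwise

variable {L : Type*} [Field L] [Algebra ℚ L] [IsGalois ℚ L]

/-- The Galois group acts continuously on the (discrete) ring of algebraic integers. -/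
theorem continuousSMul_integralClosure [TopologicalSpace (integralClosure ℤ L)]
    [DiscreteTopology (integralClosure ℤ L)] :
    ContinuousSMul (L ≃ₐ[ℚ] L) (integralClosure ℤ L) := by
  constructor
  rw [continuous_prod_of_discrete_right]
  intro b
  rw [continuous_discrete_rng]
  intro c
  rw [isOpen_iff_mem_nhds]
  intro g hg
  have hopen : IsOpen ((MulAction.stabilizer (L ≃ₐ[ℚ] L) (b : L) : Subgroup _) : Set (L ≃ₐ[ℚ] L)) :=
    stabilizer_isOpen_of_isIntegral (K := ℚ) (b : L)
  have h1 : (fun h : L ≃ₐ[ℚ] L => g⁻¹ * h) ⁻¹'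
      ((MulAction.stabilizer (L ≃ₐ[ℚ] L) (b : L) : Subgroup _) : Set (L ≃ₐ[ℚ] L)) ∈ nhds g := by
    apply (hopen.preimage (continuous_const.mul continuous_id)).mem_nhds
    simp
  refine Filter.mem_of_superset h1 ?_
  intro h hh
  simp only [Set.mem_preimage, SetLike.mem_coe, MulAction.mem_stabilizer_iff, mul_smul] at hh
  simp only [Set.mem_preimage, Set.mem_singleton_iff] at hg ⊢
  rw [← hg]
  apply Subtype.ext
  simp only [integralClosure.coe_smul]
  rw [inv_smul_eq_iff] at hh
  exact hh

theorem isInvariant_integralClosure :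
    Algebra.IsInvariant ℤ (integralClosure ℤ L) (L ≃ₐ[ℚ] L) := by
  constructor
  intro b hb
  have h1 : (b : L) ∈ Set.range (algebraMap ℚ L) := by
    rw [InfiniteGalois.mem_range_algebraMap_iff_fixed]
    intro f
    exact congrArg Subtype.val (hb f)
  obtain ⟨r, hr⟩ := h1
  have h2 : IsIntegral ℤ r := by
    have := b.2
    rw [← hr] at this
    exact (isIntegral_algebraMap_iff (algebraMap ℚ L).injective).mp this
  obtain ⟨a, ha⟩ := IsIntegrallyClosed.algebraMap_eq_of_integral h2
  refine ⟨a, Subtype.ext ?_⟩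
  rw [← hr, ← ha]
  simp

variable (A : ValuationSubring L)

theorem centre_liesOver {ℓ : ℕ} (hℓ : ℓ.Prime) (hA : (ℓ : L) ∈ A.nonunits) :
    (centre A).LiesOver (Ideal.span {(ℓ : ℤ)}) := by
  constructor
  ext a
  rw [Ideal.mem_span_singleton, Ideal.under_def, Ideal.mem_comap, eq_intCast,
    intCast_mem_centre_iff A hℓ hA]

/-- An automorphism stabilising the centre of `A` maps `A` into itself. -/
theorem apply_mem_of_smul_centre {ℓ : ℕ} (hℓ : ℓ.Prime) (hA : (ℓ : L) ∈ A.nonunits)
    (τ : L ≃ₐ[ℚ] L) (hτ : τ • centre A = centre A) {x : L} (hx : x ∈ A) : τ x ∈ A := by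
  have : CharZero L := charZero_of_injective_algebraMap (algebraMap ℚ L).injective
  have halg : IsAlgebraic ℤ x :=
    (IsFractionRing.isAlgebraic_iff ℤ ℚ L).mpr (Algebra.IsAlgebraic.isAlgebraic x)
  obtain ⟨b, s, hs, hxs⟩ := exists_fraction A hℓ hA ⟨x, hx⟩ halg
  have hs' : τ • s ∉ centre A := by
    intro h
    rw [← hτ, Ideal.smul_mem_pointwise_smul_iff] at h
    exact hs h
  have hunit : IsUnit (intToVal A (τ • s)) := by
    by_contra hnu
    exact hs' ((mem_centre_iff A _).mpr ((IsLocalRing.mem_maximalIdeal _).mpr hnu))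
  obtain ⟨u, hu⟩ := hunit
  have h1 : τ x * (τ • s : integralClosure ℤ L) = (τ • b : integralClosure ℤ L) := by
    simp only [integralClosure.coe_smul, AlgEquiv.smul_def]
    rw [← map_mul]
    exact congrArg τ hxs
  have h2 : τ x = ((intToVal A (τ • b) * (u⁻¹ : Aˣ) : A) : L) := by
    have h3 : ((u : A) : L) * (((u⁻¹ : Aˣ) : A) : L) = 1 := by
      rw [← MulMemClass.coe_mul, Units.mul_inv]; rfl
    rw [MulMemClass.coe_mul, coe_intToVal, ← h1, ← coe_intToVal A (τ • s), ← hu, mul_assoc, h3,
      mul_one]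
  rw [h2]
  exact Subtype.property _

/-- There is an automorphism stabilising the centre `Q` of `A` and inducing the `ℓ`-power map on
the quotient of the ring of algebraic integers by `Q`. -/
theorem exists_frobenius_centre [IsAlgClosed L] {ℓ : ℕ} (hℓ : ℓ.Prime)
    (hA : (ℓ : L) ∈ A.nonunits) :
    ∃ σ : L ≃ₐ[ℚ] L, σ • centre A = centre A ∧
      ∀ b : integralClosure ℤ L, σ • b - b ^ ℓ ∈ centre A := by
  classical
  letI : TopologicalSpace (integralClosure ℤ L) := ⊥
  haveI : DiscreteTopology (integralClosure ℤ L) := ⟨rfl⟩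
  haveI := continuousSMul_integralClosure (L := L)
  haveI := isInvariant_integralClosure (L := L)
  haveI := centre_liesOver A hℓ hA
  haveI : CharP (integralClosure ℤ L ⧸ centre A) ℓ := by
    rw [CharP.charP_iff_prime_eq_zero hℓ]
    rw [← map_natCast (Ideal.Quotient.mk (centre A)), Ideal.Quotient.eq_zero_iff_mem]
    exact natCast_mem_centre A hA
  haveI : Fact ℓ.Prime := ⟨hℓ⟩
  let φ : (integralClosure ℤ L ⧸ centre A) →ₐ[ℤ ⧸ Ideal.span {(ℓ : ℤ)}]
      (integralClosure ℤ L ⧸ centre A) :=
    { frobenius (integralClosure ℤ L ⧸ centre A) ℓ with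
      commutes' := by
        intro r
        obtain ⟨n, rfl⟩ := Ideal.Quotient.mk_surjective r
        have h1 : Ideal.Quotient.mk (Ideal.span {(ℓ : ℤ)}) n = ((n : ℤ) : ℤ ⧸ Ideal.span {(ℓ : ℤ)}) := by
          simp
        rw [h1, map_intCast]
        exact map_intCast (frobenius (integralClosure ℤ L ⧸ centre A) ℓ) n }
  have hφ : ∀ y, φ y = y ^ ℓ := fun y => rfl
  have hbij : Function.Bijective φ := by
    constructor
    · exact frobenius_inj (integralClosure ℤ L ⧸ centre A) ℓ
    · intro y
      obtain ⟨b, rfl⟩ := Ideal.Quotient.mk_surjective y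
      obtain ⟨c, hc⟩ := IsAlgClosed.exists_pow_nat_eq (b : L) hℓ.pos
      have hcint : IsIntegral ℤ c := IsIntegral.of_pow hℓ.pos (hc ▸ b.2)
      refine ⟨Ideal.Quotient.mk _ ⟨c, hcint⟩, ?_⟩
      rw [hφ, ← map_pow]
      congr 1
      exact Subtype.ext hc
  obtain ⟨σ, hσ⟩ := Ideal.Quotient.stabilizerHom_surjective_of_profinite (G := L ≃ₐ[ℚ] L)
    (Ideal.span {(ℓ : ℤ)}) (centre A) (AlgEquiv.ofBijective φ hbij)
  refine ⟨σ.1, σ.2, fun b => ?_⟩
  have h2 := DFunLike.congr_fun hσ (Ideal.Quotient.mk _ b)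
  rw [Ideal.Quotient.stabilizerHom_apply, AlgEquiv.ofBijective_apply, hφ, ← map_pow,
    Ideal.Quotient.eq] at h2
  exact h2

/-- **Existence of Frobenius elements**: every valuation subring of an algebraic closure of `ℚ`
lying over the prime `ℓ` admits a Frobenius element. -/
theorem exists_isFrobeniusAt [IsAlgClosed L] {ℓ : ℕ} (hℓ : ℓ.Prime) (hA : A.LiesOverPrime ℓ) :
    ∃ σ : L ≃ₐ[ℚ] L, A.IsFrobeniusAt σ ℓ := by
  have : CharZero L := charZero_of_injective_algebraMap (algebraMap ℚ L).injective
  obtain ⟨σ, hσQ, hσ⟩ := exists_frobenius_centre A hℓ hA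
  have hσinv : σ⁻¹ • centre A = centre A := by
    rw [inv_smul_eq_iff, hσQ]
  have hdec : σ ∈ A.decompositionSubgroup ℚ := by
    rw [MulAction.mem_stabilizer_iff]
    apply le_antisymm
    · intro x hx
      rw [ValuationSubring.mem_smul_pointwise_iff_exists] at hx
      obtain ⟨y, hy, rfl⟩ := hx
      exact apply_mem_of_smul_centre A hℓ hA σ hσQ hy
    · intro x hx
      rw [ValuationSubring.mem_smul_pointwise_iff_exists]
      refine ⟨σ⁻¹ x, apply_mem_of_smul_centre A hℓ hA σ⁻¹ hσinv hx, ?_⟩
      simp [AlgEquiv.smul_def, AlgEquiv.aut_inv]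
  refine ⟨σ, hdec, fun x => ?_⟩
  obtain ⟨a, rfl⟩ := IsLocalRing.residue_surjective x
  have halg : IsAlgebraic ℤ (a : L) :=
    (IsFractionRing.isAlgebraic_iff ℤ ℚ L).mpr (Algebra.IsAlgebraic.isAlgebraic (a : L))
  obtain ⟨b, s, hs, has⟩ := exists_fraction A hℓ hA a halg
  rw [← IsLocalRing.ResidueField.residue_smul, ← map_pow]
  set g : A.decompositionSubgroup ℚ := ⟨σ, hdec⟩ with hg
  -- the relation in `A`
  have h1 : a * intToVal A s = intToVal A b := Subtype.ext has
  have hcomm : ∀ c : integralClosure ℤ L, g • intToVal A c = intToVal A (σ • c) := fun c => rfl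
  have hres : ∀ c : integralClosure ℤ L,
      IsLocalRing.residue A (g • intToVal A c) = IsLocalRing.residue A (intToVal A c) ^ ℓ := by
    intro c
    rw [hcomm, ← map_pow, ← map_pow, ← sub_eq_zero, ← map_sub, ← map_sub,
      IsLocalRing.residue_eq_zero_iff]
    exact hσ c
  have h2 : g • a * g • intToVal A s = g • intToVal A b := by
    rw [← smul_mul', h1]
  have h3 := congrArg (IsLocalRing.residue A) h2
  rw [map_mul, hres, hres, ← h1, map_mul, mul_pow] at h3
  have hs0 : IsLocalRing.residue A (intToVal A s) ^ ℓ ≠ 0 := by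
    apply pow_ne_zero
    rw [Ne, IsLocalRing.residue_eq_zero_iff]
    exact hs
  rw [map_pow]
  exact mul_right_cancel₀ hs0 h3

/-- Every prime has a valuation subring lying over it. -/
theorem exists_liesOverPrime (K : Type*) [Field K] [CharZero K] {ℓ : ℕ} (hℓ : ℓ.Prime) :
    ∃ A : ValuationSubring K, A.LiesOverPrime ℓ := by
  let R : Subring K := (Int.castRingHom K).range
  let x : R := ⟨(ℓ : K), ⟨(ℓ : ℤ), by simp⟩⟩
  have hI : Ideal.span {x} ≠ ⊤ := by
    intro h
    rw [Ideal.span_singleton_eq_top] at h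
    obtain ⟨⟨y, n, rfl⟩, hy⟩ := isUnit_iff_exists_inv.mp h
    have h1 : ((ℓ : K)) * ((n : ℤ) : K) = 1 := congrArg Subtype.val hy
    have h2 : (ℓ : ℤ) * n = 1 := by exact_mod_cast h1
    have h3 : IsUnit (ℓ : ℤ) := IsUnit.of_mul_eq_one _ h2
    rw [Int.isUnit_iff] at h3
    have := hℓ.two_le
    omega
  obtain ⟨B, -, hB⟩ := Ideal.image_subset_nonunits_valuationSubring _ hI
  exact ⟨B, hB ⟨x, Ideal.subset_span rfl, rfl⟩⟩

end Galois

/-- `AlgebraicClosure ℚ` is Galois over `ℚ` for the algebra structure `DivisionRing.toRatAlgebra`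
(the one found by instance resolution in the frozen statements). -/
theorem isGalois_algebraicClosure_rat : IsGalois ℚ (AlgebraicClosure ℚ) := by
  have h : (DivisionRing.toRatAlgebra : Algebra ℚ (AlgebraicClosure ℚ)) =
      AlgebraicClosure.instAlgebra ℚ := Subsingleton.elim _ _
  rw [h]
  infer_instance

/-- Existence of Frobenius elements in the absolute Galois group of `ℚ`. -/
theorem exists_isFrobeniusAt_rat (A : ValuationSubring (AlgebraicClosure ℚ)) {ℓ : ℕ}
    (hℓ : ℓ.Prime) (hA : A.LiesOverPrime ℓ) :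
    ∃ σ : AlgebraicClosure ℚ ≃ₐ[ℚ] AlgebraicClosure ℚ, A.IsFrobeniusAt σ ℓ :=
  haveI := isGalois_algebraicClosure_rat
  exists_isFrobeniusAt A hℓ hA

/-- For every prime `ℓ` there are a place of `AlgebraicClosure ℚ` over `ℓ` and a Frobenius
element at it. -/
theorem exists_place_and_frobenius {ℓ : ℕ} (hℓ : ℓ.Prime) :
    ∃ (A : ValuationSubring (AlgebraicClosure ℚ))
      (σ : AlgebraicClosure ℚ ≃ₐ[ℚ] AlgebraicClosure ℚ), A.LiesOverPrime ℓ ∧
        A.IsFrobeniusAt σ ℓ := by
  obtain ⟨A, hA⟩ := exists_liesOverPrime (AlgebraicClosure ℚ) hℓ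
  obtain ⟨σ, hσ⟩ := exists_isFrobeniusAt_rat A hℓ hA
  exact ⟨A, σ, hA, hσ⟩

end Fermat.Agent.S54
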